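import Mathlib.Algebra.BigOperators.Field
import Mathlib.Algebra.BigOperators.Fin
import Mathlib.Analysis.SpecialFunctions.Log.Basic
import Mathlib.Data.Fintype.Pi
import Mathlib.Data.Fin.Tuple.Sort
import Mathlib.Tactic.FieldSimp
import Mathlib.Tactic.IntervalCases
import Mathlib.Tactic.Linarith
import Mathlib.Tactic.Positivity
import Mathlib.Tactic.Ring

/-!
# Unit fractions

Soundararajan's proof that Sylvester's sequence gives the best approximation of `1` from below by
`n` unit fractions, and the greedy expansion of Fibonacci and Sylvester.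
-/

set_option autoImplicit false

open Finset

namespace FA.EgyptianFractions

/-- Sylvester's sequence `2, 3, 7, 43, …`. -/
def sylvester : ℕ → ℕ
  | 0 => 2
  | k + 1 => sylvester k * (sylvester k - 1) + 1

theorem two_le_sylvester : ∀ k, 2 ≤ sylvester k
  | 0 => le_rfl
  | k + 1 => by
    have := two_le_sylvester k
    have : 1 ≤ sylvester k * (sylvester k - 1) := Nat.mul_pos (by omega) (by omega)
    rw [sylvester]
    omega

theorem sylvester_mono : Monotone sylvester := monotone_nat_of_le_succ fun k => by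
  have := two_le_sylvester k
  have := Nat.le_mul_of_pos_right (sylvester k) (show 0 < sylvester k - 1 by omega)
  rw [sylvester]
  omega

theorem prod_sylvester (n : ℕ) : ∏ i ∈ range n, sylvester i = sylvester n - 1 := by
  induction n with
  | zero => rfl
  | succ n ih => rw [prod_range_succ, ih, sylvester, Nat.add_sub_cancel, mul_comm]

theorem sylvester_sub_one_pos (n : ℕ) : (0 : ℝ) < (sylvester n - 1 : ℕ) := by
  exact_mod_cast (by have := two_le_sylvester n; omega : 0 < sylvester n - 1)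

theorem sum_sylvester (n : ℕ) :
    ∑ i ∈ range n, (1 : ℝ) / sylvester i = 1 - 1 / (sylvester n - 1 : ℕ) := by
  induction n with
  | zero => simp [sylvester]
  | succ n ih =>
    rw [sum_range_succ, ih, sylvester, Nat.add_sub_cancel, Nat.cast_mul]
    have h2 := two_le_sylvester n
    have h3 := (sylvester_sub_one_pos n).ne'
    have h4 : (sylvester n : ℝ) ≠ 0 := by exact_mod_cast (by omega : sylvester n ≠ 0)
    have h5 : ((sylvester n - 1 : ℕ) : ℝ) = (sylvester n : ℝ) - 1 := by
      rw [Nat.cast_sub (by omega), Nat.cast_one]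
    rw [h5] at h3 ⊢
    field_simp
    ring

/-- Abel summation against a decreasing weight. -/
theorem mul_partial_sum_le (x d : ℕ → ℝ) (m : ℕ) (hd : ∀ j ≤ m + 1, 0 ≤ ∑ i ∈ range j, d i)
    (hx : ∀ i < m, x (i + 1) ≤ x i) :
    x m * ∑ i ∈ range (m + 1), d i ≤ ∑ i ∈ range (m + 1), x i * d i := by
  induction m with
  | zero => simp
  | succ m ih =>
    have h := ih (fun j hj => hd j (by omega)) fun i hi => hx i (by omega)
    rw [sum_range_succ, sum_range_succ (fun i => x i * d i), mul_add]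
    nlinarith [hd (m + 1) (by omega), hx m (by omega)]

/-- Soundararajan's lemma: dominated prefix products give dominated sums. -/
theorem sum_le_of_prod_le (x y : ℕ → ℝ) (m : ℕ) (hx0 : ∀ i < m, 0 < x i) (hy0 : ∀ i < m, 0 < y i)
    (hx : ∀ i, i + 1 < m → x (i + 1) ≤ x i)
    (hp : ∀ j ≤ m, ∏ i ∈ range j, x i ≤ ∏ i ∈ range j, y i) :
    ∑ i ∈ range m, x i ≤ ∑ i ∈ range m, y i ∧
      (∑ i ∈ range m, x i = ∑ i ∈ range m, y i → ∀ i < m, x i = y i) := by
  rcases Nat.eq_zero_or_pos m with rfl | hm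
  · simp
  obtain ⟨l, rfl⟩ : ∃ l, m = l + 1 := ⟨m - 1, by omega⟩
  set d : ℕ → ℝ := fun i => Real.log (y i / x i) with hd
  have hD : ∀ j ≤ l + 1, 0 ≤ ∑ i ∈ range j, d i := fun j hj => by
    have hlt : ∀ i ∈ range j, i < l + 1 := fun i hi => (mem_range.1 hi).trans_le hj
    rw [hd, ← Real.log_prod fun i hi => (div_pos (hy0 i (hlt i hi)) (hx0 i (hlt i hi))).ne',
      prod_div_distrib]
    refine Real.log_nonneg ((one_le_div (prod_pos fun i hi => hx0 i (hlt i hi))).2 (hp j hj))
  have hS : 0 ≤ ∑ i ∈ range (l + 1), x i * d i :=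
    (mul_nonneg (hx0 l (by omega)).le (hD _ le_rfl)).trans
      (mul_partial_sum_le x d l hD fun i hi => hx i (by omega))
  have hle : ∀ i ∈ range (l + 1), x i * d i ≤ y i - x i := fun i hi => by
    have h1 := hx0 i (mem_range.1 hi)
    have h2 := hy0 i (mem_range.1 hi)
    refine (mul_le_mul_of_nonneg_left (Real.log_le_sub_one_of_pos (div_pos h2 h1)) h1.le).trans
      (le_of_eq ?_)
    field_simp
  have hsum := sum_le_sum hle
  rw [sum_sub_distrib] at hsum
  refine ⟨by linarith, fun heq i hi => ?_⟩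
  have hall := (sum_eq_sum_iff_of_le hle).1 (by rw [sum_sub_distrib]; linarith) i (mem_range.2 hi)
  by_contra hne
  have h1 := hx0 i hi
  have hlt := Real.log_lt_sub_one_of_pos (div_pos (hy0 i hi) h1)
    fun h => hne (div_eq_one_iff_eq h1.ne' |>.1 h).symm
  have h3 := mul_lt_mul_of_pos_left hlt h1
  rw [show x i * (y i / x i - 1) = y i - x i by field_simp] at h3
  exact (ne_of_lt h3) hall

/-- Soundararajan's theorem for an increasing sequence. -/
theorem sum_le_sylvester_mono (n : ℕ) (a : ℕ → ℕ) (ha : ∀ i < n, 0 < a i)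
    (hmono : ∀ i, i + 1 < n → a i ≤ a (i + 1)) (h : ∑ i ∈ range n, (1 : ℝ) / a i < 1) :
    ∑ i ∈ range n, (1 : ℝ) / a i ≤ ∑ i ∈ range n, (1 : ℝ) / sylvester i ∧
      (∑ i ∈ range n, (1 : ℝ) / a i = ∑ i ∈ range n, (1 : ℝ) / sylvester i →
        ∀ i < n, a i = sylvester i) := by
  induction n using Nat.strong_induction_on with
  | _ n IH =>
  rcases Nat.eq_zero_or_pos n with rfl | hn
  · simp
  have ha' : ∀ i < n, (0 : ℝ) < a i := fun i hi => Nat.cast_pos.2 (ha i hi)
  have hs' : ∀ i, (0 : ℝ) < sylvester i := fun i =>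
    Nat.cast_pos.2 (by linarith [two_le_sylvester i])
  rcases lt_or_ge (∏ i ∈ range n, a i) (∏ i ∈ range n, sylvester i) with hP | hP
  · -- a small product
    set P := ∏ i ∈ range n, a i with hPdef
    have hP0 : (0 : ℝ) < P := Nat.cast_pos.2 (prod_pos fun i hi => ha i (mem_range.1 hi))
    obtain ⟨N, hN⟩ : ∃ N : ℕ, ∑ i ∈ range n, (1 : ℝ) / a i = N / P := by
      refine ⟨∑ i ∈ range n, ∏ j ∈ (range n).erase i, a j, ?_⟩
      rw [Nat.cast_sum, sum_div]
      refine sum_congr rfl fun i hi => ?_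
      rw [hPdef, ← mul_prod_erase _ _ hi, Nat.cast_mul, div_eq_div_iff
        (ha' i (mem_range.1 hi)).ne' (mul_ne_zero (ha' i (mem_range.1 hi)).ne' (Nat.cast_ne_zero.2
          (prod_ne_zero_iff.2 fun j hj => (ha j (mem_range.1 (mem_of_mem_erase hj))).ne')))]
      ring
    rw [hN, div_lt_one hP0, Nat.cast_lt] at h
    have hN1 : (N : ℝ) + 1 ≤ P := by exact_mod_cast h
    have hlt : (N : ℝ) / P < ∑ i ∈ range n, (1 : ℝ) / sylvester i := by
      rw [sum_sylvester, ← prod_sylvester]
      have hle : (N : ℝ) / P ≤ 1 - 1 / P := by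
        rw [le_sub_iff_add_le, ← add_div, div_le_one hP0]
        exact hN1
      have := one_div_lt_one_div_of_lt hP0 (Nat.cast_lt.2 hP)
      linarith
    rw [hN]
    exact ⟨hlt.le, fun e => absurd e hlt.ne⟩
  · -- the suffix after the last dominated product
    set x : ℕ → ℝ := fun i => 1 / a i with hx
    set y : ℕ → ℝ := fun i => 1 / sylvester i with hy
    set S := (range n).filter fun k => ∏ i ∈ Ico k n, x i ≤ ∏ i ∈ Ico k n, y i with hS
    have h0 : 0 ∈ S := by
      rw [hS, mem_filter]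
      refine ⟨mem_range.2 hn, ?_⟩
      rw [← range_eq_Ico, hx, hy, prod_div_distrib, prod_div_distrib, prod_const_one]
      refine one_div_le_one_div_of_le (prod_pos fun i _ => hs' i) ?_
      rw [← Nat.cast_prod, ← Nat.cast_prod]
      exact Nat.cast_le.2 hP
    obtain ⟨k, hkS, hmax⟩ : ∃ k ∈ S, ∀ l ∈ S, l ≤ k :=
      ⟨S.max' ⟨0, h0⟩, S.max'_mem _, fun l hl => S.le_max' l hl⟩
    obtain ⟨hkn, hk⟩ := mem_filter.1 hkS
    rw [mem_range] at hkn
    obtain ⟨m, rfl⟩ := Nat.exists_eq_add_of_le hkn.le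
    have hlo : ∑ i ∈ range k, x i ≤ ∑ i ∈ range (k + m), x i :=
      sum_le_sum_of_subset_of_nonneg (range_mono (by omega)) fun i _ _ => by positivity
    obtain ⟨i1, i2⟩ := IH k hkn (fun i hi => ha i (by omega)) (fun i hi => hmono i (by omega))
      (hlo.trans_lt h)
    obtain ⟨l1, l2⟩ := sum_le_of_prod_le (fun i => x (k + i)) (fun i => y (k + i)) m
      (fun i hi => one_div_pos.2 (ha' _ (by omega))) (fun i _ => one_div_pos.2 (hs' _))
      (fun i hi => one_div_le_one_div_of_le (ha' _ (by omega))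
        (Nat.cast_le.2 (by rw [← add_assoc]; exact hmono _ (by omega))))
      fun j hj => by
        rcases eq_or_lt_of_le hj with rfl | hjm
        · simpa [prod_Ico_eq_prod_range] using hk
        rcases Nat.eq_zero_or_pos j with rfl | hj0
        · simp
        by_contra hc
        push Not at hc
        have hgt : ∏ i ∈ Ico (k + j) (k + m), y i < ∏ i ∈ Ico (k + j) (k + m), x i := by
          by_contra hle
          push Not at hle
          have := hmax (k + j) (mem_filter.2 ⟨mem_range.2 (by omega), hle⟩)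
          omega
        rw [← prod_Ico_consecutive x (show k ≤ k + j by omega) (show k + j ≤ k + m by omega),
          ← prod_Ico_consecutive y (show k ≤ k + j by omega) (show k + j ≤ k + m by omega)] at hk
        have e : ∀ f : ℕ → ℝ, ∏ i ∈ Ico k (k + j), f i = ∏ i ∈ range j, f (k + i) := fun f => by
          rw [prod_Ico_eq_prod_range, Nat.add_sub_cancel_left]
        rw [e, e] at hk
        have hpos : 0 < ∏ i ∈ range j, y (k + i) := prod_pos fun i _ => one_div_pos.2 (hs' _)
        have hpos2 : 0 < ∏ i ∈ Ico (k + j) (k + m), y i := prod_pos fun i _ => one_div_pos.2 (hs' _)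
        nlinarith
    change ∑ i ∈ range (k + m), x i ≤ ∑ i ∈ range (k + m), y i ∧
      (∑ i ∈ range (k + m), x i = ∑ i ∈ range (k + m), y i → ∀ i < k + m, a i = sylvester i)
    rw [sum_range_add, sum_range_add]
    refine ⟨add_le_add i1 l1, fun e i hi => ?_⟩
    rcases lt_or_ge i k with hik | hik
    · exact i2 (by linarith) i hik
    · have := l2 (by linarith) (i - k) (by omega)
      simp only [hx, hy, Nat.add_sub_cancel' hik, one_div, inv_inj, Nat.cast_inj] at this
      exact this

/-- Sorting. -/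
theorem sum_le_sylvester {n : ℕ} (a : Fin n → ℕ) (ha : ∀ i, 0 < a i)
    (h : ∑ i, (1 : ℝ) / a i < 1) :
    ∑ i, (1 : ℝ) / a i ≤ 1 - 1 / (sylvester n - 1 : ℕ) ∧
      (∑ i, (1 : ℝ) / a i = 1 - 1 / (sylvester n - 1 : ℕ) ↔
        ∃ σ : Equiv.Perm (Fin n), ∀ i : Fin n, a (σ i) = sylvester i) := by
  set σ := Tuple.sort a
  set b : ℕ → ℕ := fun i => if hi : i < n then a (σ ⟨i, hi⟩) else 1 with hb
  have e : ∑ i, (1 : ℝ) / a i = ∑ i ∈ range n, (1 : ℝ) / b i := by
    rw [← Fin.sum_univ_eq_sum_range (fun i => (1 : ℝ) / b i) n,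
      ← Equiv.sum_comp σ fun i => (1 : ℝ) / a i]
    exact sum_congr rfl fun i _ => by simp [hb, i.2]
  obtain ⟨b1, b2⟩ := sum_le_sylvester_mono n b (fun i hi => by simp [hb, hi, ha])
    (fun i hi => by
      simp only [hb, dif_pos hi, dif_pos (Nat.lt_of_succ_lt hi)]
      exact Tuple.monotone_sort a (by simp)) (e ▸ h)
  rw [e, ← sum_sylvester]
  refine ⟨b1, fun he => ⟨σ, fun i => by simpa [hb, i.2] using b2 he i i.2⟩, ?_⟩
  rintro ⟨τ, hτ⟩
  rw [← e, ← Fin.sum_univ_eq_sum_range (fun i => (1 : ℝ) / sylvester i) n,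
    ← Equiv.sum_comp τ fun i => (1 : ℝ) / a i]
  exact sum_congr rfl fun i _ => by rw [hτ i]

/-- Curtiss's theorem. -/
theorem le_sylvester_of_sum_eq_one {n : ℕ} (a : Fin (n + 1) → ℕ) (ha : ∀ i, 0 < a i)
    (h : ∑ i, (1 : ℝ) / a i = 1) (i : Fin (n + 1)) : a i ≤ sylvester n - 1 := by
  rw [Fin.sum_univ_succAbove _ i] at h
  have hai : (0 : ℝ) < a i := Nat.cast_pos.2 (ha i)
  have hpos : (0 : ℝ) < 1 / (a i : ℝ) := one_div_pos.2 hai
  obtain ⟨b1, -⟩ := sum_le_sylvester (fun j => a (i.succAbove j)) (fun j => ha _) (by linarith)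
  have : (1 : ℝ) / (sylvester n - 1 : ℕ) ≤ 1 / (a i : ℝ) := by linarith
  exact_mod_cast (one_div_le_one_div (sylvester_sub_one_pos n) hai).1 this

/-- Finitely many decompositions of `1`. -/
theorem finite_sum_eq_one (n : ℕ) :
    {a : Fin n → ℕ | (∀ i, 0 < a i) ∧ ∑ i, (1 : ℝ) / a i = 1}.Finite := by
  cases n with
  | zero => exact Set.toFinite _
  | succ n =>
    refine ((Set.Finite.pi fun _ => Set.finite_Iic (sylvester n - 1)).subset fun a ha => ?_)
    exact fun i _ => le_sylvester_of_sum_eq_one a ha.1 ha.2 i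

/-- The bound is attained. -/
theorem sylvester_sum_eq_one (n : ℕ) :
    ∑ i ∈ range n, (1 : ℝ) / sylvester i + 1 / (sylvester n - 1 : ℕ) = 1 := by
  rw [sum_sylvester, sub_add_cancel]

/-- The greedy expansion. -/
theorem fibonacci_sylvester (p : ℕ) : ∀ q, 0 < p → p < q →
    ∃ D : Finset ℕ, #D ≤ p ∧ (∀ d ∈ D, 2 ≤ d) ∧ ∑ d ∈ D, (1 : ℝ) / d = (p : ℝ) / q := by
  induction p using Nat.strong_induction_on with
  | _ p IH =>
  intro q hp hpq
  obtain ⟨x, hxlo, hxhi⟩ : ∃ x, q ≤ p * x ∧ p * x < q + p :=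
    ⟨(q + p - 1) / p, by
      have := Nat.div_add_mod (q + p - 1) p
      have := Nat.mod_lt (q + p - 1) hp
      omega, by
      have := Nat.mul_div_le (q + p - 1) p
      omega⟩
  have hx2 : 2 ≤ x := by
    by_contra hx
    interval_cases x <;> omega
  have hx0 : (x : ℝ) ≠ 0 := by exact_mod_cast (by omega : x ≠ 0)
  have hq0 : (q : ℝ) ≠ 0 := by exact_mod_cast (by omega : q ≠ 0)
  rcases Nat.eq_zero_or_pos (p * x - q) with hr | hr
  · have he : (p : ℝ) * x = q := by exact_mod_cast (by omega : p * x = q)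
    refine ⟨{x}, by simpa using Nat.one_le_iff_ne_zero.2 hp.ne', by simpa using hx2, ?_⟩
    rw [sum_singleton, ← he]
    have : (p : ℝ) ≠ 0 := by exact_mod_cast (by omega : p ≠ 0)
    field_simp
  · have hrlt : p * x - q < p := by omega
    obtain ⟨D, hD1, hD2, hD3⟩ := IH _ hrlt (q * x) hr
      (lt_of_lt_of_le (hrlt.trans hpq) (Nat.le_mul_of_pos_right q (by omega)))
    have hxD : x ∉ D := fun hx => by
      have hle := single_le_sum (f := fun d : ℕ => (1 : ℝ) / d) (fun d _ => by positivity) hx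
      rw [hD3, Nat.cast_mul] at hle
      have hlt : ((p * x - q : ℕ) : ℝ) < q := by exact_mod_cast hrlt.trans hpq
      rw [div_le_div_iff₀ (by positivity) (by positivity)] at hle
      nlinarith [show (0 : ℝ) < x by exact_mod_cast (by omega : 0 < x)]
    refine ⟨insert x D, ?_, ?_, ?_⟩
    · rw [card_insert_of_notMem hxD]
      omega
    · intro d hd
      rcases mem_insert.1 hd with rfl | hd
      exacts [hx2, hD2 d hd]
    · rw [sum_insert hxD, hD3, Nat.cast_mul, Nat.cast_sub (by omega), Nat.cast_mul]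
      field_simp
      ring

end FA.EgyptianFractions
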